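import Mathlib.RingTheory.UniqueFactorizationDomain.Basic
import Mathlib.Algebra.Prime.Lemmas
import Mathlib.Algebra.BigOperators.Ring.Finset
import Mathlib.Tactic

/-!
# Local powers glue in a factorial ring

If `f` is locally an `n`-th power away from the prime divisors of `s` (certificate:
`a i ^ n = d i * f` and `∑ c i * d i = s`), then `f = t * b ^ n` where all prime divisors of `t`
divide `s`.
-/

set_option autoImplicit false

namespace Fermat.Agent.KummerLocal

variable {R : Type*} [CommRing R] [IsDomain R] [UniqueFactorizationMonoid R]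

omit [UniqueFactorizationMonoid R] in
/-- One step: a prime not dividing `s` which divides `f` splits off with exponent `n`. -/
theorem certificate_step {ι : Type*} [Fintype ι] {n : ℕ} {s f q : R} {c d a : ι → R}
    (hs : ∑ i, c i * d i = s) (ha : ∀ i, a i ^ n = d i * f)
    (hq : Prime q) (hqs : ¬ q ∣ s) (hqf : q ∣ f) :
    ∃ (f' : R) (a' : ι → R), f = q ^ n * f' ∧ ∀ i, a' i ^ n = d i * f' := by
  have hqa : ∀ i, q ∣ a i := fun i =>
    hq.dvd_of_dvd_pow (show q ∣ a i ^ n from (ha i).symm ▸ hqf.mul_left _)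
  choose a' ha' using hqa
  obtain ⟨i, hi⟩ : ∃ i, ¬ q ∣ d i := by
    by_contra h
    push Not at h
    exact hqs (hs ▸ Finset.dvd_sum fun i _ => (h i).mul_left _)
  have hpow : q ^ n ∣ d i * f := ⟨a' i ^ n, by rw [← ha i, ha' i, mul_pow]⟩
  obtain ⟨f', hf'⟩ := hq.pow_dvd_of_dvd_mul_left n hi hpow
  refine ⟨f', a', hf', fun j => mul_left_cancel₀ (pow_ne_zero n hq.ne_zero) ?_⟩
  rw [← mul_pow, ← ha' j, ha j, hf']
  ring

/-- A certificate forces every prime not dividing `s` to divide `f` to an order divisible by `n`. -/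
theorem exists_eq_mul_pow_of_certificate {ι : Type*} [Fintype ι] {n : ℕ} (hn : n ≠ 0)
    {s f : R} {c d a : ι → R} (hs : ∑ i, c i * d i = s) (hf : f ≠ 0)
    (ha : ∀ i, a i ^ n = d i * f) :
    ∃ t b : R, f = t * b ^ n ∧ t ≠ 0 ∧ ∀ q : R, Prime q → q ∣ t → q ∣ s := by
  suffices ∀ f : R, f ≠ 0 → ∀ a : ι → R, (∀ i, a i ^ n = d i * f) →
      ∃ t b : R, f = t * b ^ n ∧ t ≠ 0 ∧ ∀ q : R, Prime q → q ∣ t → q ∣ s from this f hf a ha
  intro f
  induction f using (wellFounded_dvdNotUnit (α := R)).induction with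
  | _ f IH =>
    intro hf a ha
    by_cases h : ∃ q, Prime q ∧ q ∣ f ∧ ¬ q ∣ s
    · obtain ⟨q, hq, hqf, hqs⟩ := h
      obtain ⟨f', a', rfl, ha'⟩ := certificate_step hs ha hq hqs hqf
      have hf' : f' ≠ 0 := right_ne_zero_of_mul hf
      have hlt : DvdNotUnit f' (q ^ n * f') :=
        ⟨hf', q ^ n, fun hu => hq.not_isUnit ((isUnit_pow_iff hn).mp hu), mul_comm _ _⟩
      obtain ⟨t, b, rfl, ht, hts⟩ := IH f' hlt hf' a' ha'
      exact ⟨t, q * b, by ring, ht, hts⟩
    · push Not at h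
      exact ⟨f, 1, by rw [one_pow, mul_one], hf, h⟩

/-- An element which is locally a unit times an `n`-th power at every prime not dividing `s` is an
`n`-th power up to such primes. -/
theorem exists_eq_mul_pow_of_local {n : ℕ} (hn : n ≠ 0) {s : R} :
    ∀ f : R, f ≠ 0 →
      (∀ q : R, Prime q → ¬ q ∣ s → ∃ u v x : R, ¬ q ∣ u ∧ ¬ q ∣ v ∧ u * f = v * x ^ n) →
      ∃ t b : R, f = t * b ^ n ∧ t ≠ 0 ∧ ∀ q : R, Prime q → q ∣ t → q ∣ s := by
  intro f
  induction f using (wellFounded_dvdNotUnit (α := R)).induction with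
  | _ f IH =>
    intro hf hloc
    by_cases h : ∃ q, Prime q ∧ q ∣ f ∧ ¬ q ∣ s
    · obtain ⟨q, hq, hqf, hqs⟩ := h
      obtain ⟨u, v, x, hu, hv, hx⟩ := hloc q hq hqs
      have hqx : q ∣ x := hq.dvd_of_dvd_pow
        ((hq.dvd_or_dvd (hx ▸ hqf.mul_left u : q ∣ v * x ^ n)).resolve_left hv)
      obtain ⟨f', rfl⟩ : q ^ n ∣ f := hq.pow_dvd_of_dvd_mul_left n hu
        (hx ▸ (pow_dvd_pow_of_dvd hqx n).mul_left v)
      have hf' : f' ≠ 0 := right_ne_zero_of_mul hf
      have hlt : DvdNotUnit f' (q ^ n * f') :=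
        ⟨hf', q ^ n, fun hu => hq.not_isUnit ((isUnit_pow_iff hn).mp hu), mul_comm _ _⟩
      obtain ⟨t, b, rfl, ht, hts⟩ := IH f' hlt hf' fun r hr hrs => by
        obtain ⟨u', v', x', hu', hv', hx'⟩ := hloc r hr hrs
        by_cases hrq : r ∣ q
        · obtain ⟨w, hw⟩ := (hr.associated_of_dvd hq hrq)
          obtain ⟨y, rfl⟩ : r ∣ x' := hr.dvd_of_dvd_pow
            ((hr.dvd_or_dvd (hx' ▸ ((hrq.trans (dvd_pow_self q hn)).mul_right _).mul_left u' :
              r ∣ v' * x' ^ n)).resolve_left hv')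
          refine ⟨u' * (w : R) ^ n, v', y, fun hd => ?_, hv',
            mul_left_cancel₀ (pow_ne_zero n hr.ne_zero) ?_⟩
          · rcases hr.dvd_or_dvd hd with hd | hd
            · exact hu' hd
            · exact hr.not_isUnit (isUnit_of_dvd_unit hd (w.isUnit.pow n))
          · rw [← hw] at hx'
            linear_combination hx'
        · exact ⟨u' * q ^ n, v', x', fun hd => (hr.dvd_or_dvd hd).elim hu'
            (fun hd' => hrq (hr.dvd_of_dvd_pow hd')), hv', by linear_combination hx'⟩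
      exact ⟨t, q * b, by ring, ht, hts⟩
    · push Not at h
      exact ⟨f, 1, by rw [one_pow, mul_one], hf, h⟩

omit [IsDomain R] in
/-- Elements whose prime divisors are associated to one of two given primes are monomials. -/
theorem exists_eq_unit_mul_pow_mul_pow {x y : R} :
    ∀ t : R, t ≠ 0 → (∀ q : R, Prime q → q ∣ t → Associated q x ∨ Associated q y) →
      ∃ (u : Rˣ) (i j : ℕ), t = u * x ^ i * y ^ j := by
  intro t
  induction t using UniqueFactorizationMonoid.induction_on_prime with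
  | h₁ => exact fun h => absurd rfl h
  | h₂ t ht => exact fun _ _ => ⟨ht.unit, 0, 0, by simp⟩
  | h₃ t q ht hq IH =>
    intro _ h
    obtain ⟨u, i, j, hu⟩ := IH ht fun r hr hrt => h r hr (hrt.mul_left _)
    rcases h q hq (dvd_mul_right _ _) with ⟨v, hv⟩ | ⟨v, hv⟩
    · exact ⟨v⁻¹ * u, i + 1, j, by
        rw [hu, ← hv]; push_cast; rw [mul_pow, pow_succ]
        linear_combination (-(↑u * (q * q ^ i) * (v : R) ^ i * y ^ j)) * (Units.inv_mul v)⟩
    · exact ⟨v⁻¹ * u, i, j + 1, by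
        rw [hu, ← hv]; push_cast; rw [mul_pow, pow_succ]
        linear_combination (-(↑u * x ^ i * (q * q ^ j) * (v : R) ^ j)) * (Units.inv_mul v)⟩

end Fermat.Agent.KummerLocal
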